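import Fermat.Agent.S18.H18ConstSkel

/-!
# S18 adapter, task R-S18a: `residueAlgClosed : IfaceResidueAlgClosed`

The residue field of a valuation subring of an algebraically closed field is algebraically
closed: a monic polynomial over the residue field lifts to a monic polynomial over the valuation
ring, which has a root in the field; the root is integral, hence lies in the valuation ring.
-/

set_option autoImplicit false

noncomputable section

open Polynomial

namespace Fermat.Agent.S18

/-- The residue field of a valuation subring of an algebraically closed field is algebraically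
closed (universe-polymorphic form). -/
theorem h72_residueField_isAlgClosed {L : Type*} [Field L] [IsAlgClosed L]
    (A : ValuationSubring L) : IsAlgClosed (IsLocalRing.ResidueField A) := by
  apply IsAlgClosed.of_exists_root
  intro p hp hirr
  have hsurj : Function.Surjective (IsLocalRing.residue A) := IsLocalRing.residue_surjective
  have hlift : p ∈ lifts (IsLocalRing.residue A) :=
    (Polynomial.mem_lifts p).2 (Polynomial.map_surjective _ hsurj p)
  obtain ⟨P, hPmap, hPdeg, hPmon⟩ := lifts_and_natDegree_eq_and_monic hlift hp
  have hpdeg : p.natDegree ≠ 0 := by
    have h1 := degree_pos_of_irreducible hirr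
    have h2 := natDegree_pos_iff_degree_pos.mpr h1
    omega
  have hinj : Function.Injective (algebraMap A L) := Subtype.val_injective
  have hmon' : (P.map (algebraMap A L)).Monic := hPmon.map _
  have hdeg : (P.map (algebraMap A L)).degree ≠ 0 := by
    rw [degree_eq_natDegree hmon'.ne_zero, hPmon.natDegree_map, hPdeg]
    exact_mod_cast hpdeg
  obtain ⟨z, hz⟩ := IsAlgClosed.exists_root (P.map (algebraMap A L)) hdeg
  have hint : IsIntegral A z := ⟨P, hPmon, by rw [eval₂_eq_eval_map]; exact hz⟩
  obtain ⟨a, ha⟩ := IsIntegrallyClosed.isIntegral_iff.mp hint
  refine ⟨IsLocalRing.residue A a, ?_⟩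
  have hPa : P.eval a = 0 := by
    apply hinj
    have h1 : (P.map (algebraMap A L)).eval z = 0 := hz
    rw [← ha, eval_map, eval₂_at_apply] at h1
    rw [h1, map_zero]
  rw [← hPmap, eval_map, eval₂_at_apply, hPa, map_zero]

/-- **R-S18a.** -/
theorem residueAlgClosed : IfaceResidueAlgClosed :=
  fun _ _ _ A => h72_residueField_isAlgClosed A

end Fermat.Agent.S18

end
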