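import Mathlib
import Fermat.Prelude.Def_ModularCurve_ReductionModL
import Fermat.Prelude.Def_EllipticCurve_FrobeniusTrace
import Fermat.Prelude.Thm_ModularCurve_coeffMap_qExpand

/-!
# S18: reduction to the torsion-injectivity gate

`S18` (injectivity of the reduction map `J₀(N)[m] → J₀(N)(𝔽̄_ℓ)`, `ℓ ∤ mN`) is reduced to a
statement which no longer mentions the (arbitrary) reduction map of places `r`:

`TorsionGate A N m`: if `Y₁, Y₂ ∈ A((q))` are integral modular functions of level `N` whose
reductions are nonzero elements of `F_k = k(j̄(q^d) : d ∣ N)` with the same divisor, and if the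
divisor of `Y₁ / Y₂` on `F_L = ℚ̄(j(q^d) : d ∣ N)` is divisible by `m`, then it is `m` times a
principal divisor.

Main result: `Fermat.Agent.S18.eq_zero_of_gate`.
-/

set_option autoImplicit false
set_option synthInstance.maxHeartbeats 400000

noncomputable section

open HahnSeries IntermediateField AlgebraicCurve ModularCurve

namespace Fermat.Agent.S18

variable (A : ValuationSubring (AlgebraicClosure ℚ)) (N : ℕ)

/-- An integral modular function: a Laurent series over `A` whose image over `ℚ̄` lies in the
function field of `X₀(N)` and whose reduction is a nonzero element of the function field in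
characteristic `ℓ`. -/
structure IntFun where
  /-- the series -/
  y : LaurentSeries A
  memL : coeffMap A.subtype y ∈ modularFunctionFieldBar N
  memk : coeffMap (IsLocalRing.residue A) y ∈
    modularFunctionFieldFullC (IsLocalRing.ResidueField A) N
  ne : coeffMap (IsLocalRing.residue A) y ≠ 0

namespace IntFun

variable {A N}

/-- the function over `ℚ̄` -/
def gen (Y : IntFun A N) : modularFunctionFieldBar N := ⟨coeffMap A.subtype Y.y, Y.memL⟩

/-- the reduction -/
def red (Y : IntFun A N) : modularFunctionFieldFullC (IsLocalRing.ResidueField A) N :=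
  ⟨coeffMap (IsLocalRing.residue A) Y.y, Y.memk⟩

theorem red_ne_zero (Y : IntFun A N) : Y.red ≠ 0 := fun h => Y.ne (congrArg Subtype.val h)

theorem coeffMap_subtype_injective :
    Function.Injective (coeffMap (A.subtype) : LaurentSeries A → _) := by
  intro x y hxy
  ext n
  have := congrArg (fun z => z.coeff n) hxy
  simp only [coeffMap_coeff] at this
  exact this

theorem y_ne_zero (Y : IntFun A N) : Y.y ≠ 0 := fun h => Y.ne (by rw [h, map_zero])

theorem gen_ne_zero (Y : IntFun A N) : Y.gen ≠ 0 := by
  intro h
  have h1 : coeffMap A.subtype Y.y = 0 := congrArg Subtype.val h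
  have h2 : Y.y = 0 := coeffMap_subtype_injective (by rw [h1, map_zero])
  exact Y.y_ne_zero h2

/-- the constant function `1` -/
def one : IntFun A N where
  y := 1
  memL := by rw [map_one]; exact one_mem _
  memk := by rw [map_one]; exact one_mem _
  ne := by rw [map_one]; exact one_ne_zero

/-- product of integral functions -/
def mul (Y Z : IntFun A N) : IntFun A N where
  y := Y.y * Z.y
  memL := by rw [map_mul]; exact mul_mem Y.memL Z.memL
  memk := by rw [map_mul]; exact mul_mem Y.memk Z.memk
  ne := by rw [map_mul]; exact mul_ne_zero Y.ne Z.ne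

/-- powers of integral functions -/
def pow (Y : IntFun A N) (n : ℕ) : IntFun A N where
  y := Y.y ^ n
  memL := by rw [map_pow]; exact pow_mem Y.memL n
  memk := by rw [map_pow]; exact pow_mem Y.memk n
  ne := by rw [map_pow]; exact pow_ne_zero n Y.ne

@[simp] theorem gen_one : (one : IntFun A N).gen = 1 := Subtype.ext (map_one _)
@[simp] theorem red_one : (one : IntFun A N).red = 1 := Subtype.ext (map_one _)
@[simp] theorem gen_mul (Y Z : IntFun A N) : (Y.mul Z).gen = Y.gen * Z.gen :=
  Subtype.ext (map_mul _ _ _)
@[simp] theorem red_mul (Y Z : IntFun A N) : (Y.mul Z).red = Y.red * Z.red :=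
  Subtype.ext (map_mul _ _ _)
@[simp] theorem gen_pow (Y : IntFun A N) (n : ℕ) : (Y.pow n).gen = Y.gen ^ n :=
  Subtype.ext (map_pow _ _ _)
@[simp] theorem red_pow (Y : IntFun A N) (n : ℕ) : (Y.pow n).red = Y.red ^ n :=
  Subtype.ext (map_pow _ _ _)

end IntFun

/-- **The torsion-injectivity gate** for `(A, N, m)`. -/
def TorsionGate (m : ℕ) : Prop :=
  ∀ Y₁ Y₂ : IntFun A N,
    (∀ Q : Place (IsLocalRing.ResidueField A)
        (modularFunctionFieldFullC (IsLocalRing.ResidueField A) N), Q.ord Y₁.red = Q.ord Y₂.red) →
    (∀ P : Place (AlgebraicClosure ℚ) (modularFunctionFieldBar N),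
        (m : ℤ) ∣ P.ord Y₁.gen - P.ord Y₂.gen) →
    ∃ g : modularFunctionFieldBar N, g ≠ 0 ∧
      ∀ P : Place (AlgebraicClosure ℚ) (modularFunctionFieldBar N),
        P.ord Y₁.gen - P.ord Y₂.gen = m * P.ord g

/-- The gate in the form needed for the frozen statement S18. -/
def TorsionGateStatement : Prop :=
  ∀ (N : ℕ) [NeZero N] (ℓ : ℕ), ℓ.Prime → ¬ ℓ ∣ N →
    ∀ A : ValuationSubring (AlgebraicClosure ℚ), A.LiesOverPrime ℓ →
      ∀ m : ℕ, ¬ ℓ ∣ m → TorsionGate A N m

end Fermat.Agent.S18

end
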