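import Mathlib
import Fermat.Agent.S18.H18Gate

/-!
# S18 from the torsion-injectivity gate

`Fermat.Agent.S18.eq_zero_of_gate`: the conclusion of the frozen statement S18 follows from
`TorsionGate A N m` (for `m ≠ 0`), for an arbitrary place-reduction map `r` satisfying the
Prelude's `ReductionInputsModL`.
-/

set_option autoImplicit false
set_option synthInstance.maxHeartbeats 400000

noncomputable section

open HahnSeries IntermediateField AlgebraicCurve ModularCurve

namespace Fermat.Agent.S18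

variable (A : ValuationSubring (AlgebraicClosure ℚ)) (N : ℕ)

/-- Series over the residue field which are reductions of series over `A` whose image over `ℚ̄`
is a modular function of level `N`. -/
def liftable : Subalgebra (IsLocalRing.ResidueField A) (LaurentSeries (IsLocalRing.ResidueField A)) where
  carrier := {x | ∃ y : LaurentSeries A, coeffMap A.subtype y ∈ modularFunctionFieldBar N ∧
    coeffMap (IsLocalRing.residue A) y = x}
  mul_mem' := by
    rintro _ _ ⟨y, hy, rfl⟩ ⟨z, hz, rfl⟩
    exact ⟨y * z, by rw [map_mul]; exact mul_mem hy hz, map_mul _ _ _⟩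
  add_mem' := by
    rintro _ _ ⟨y, hy, rfl⟩ ⟨z, hz, rfl⟩
    exact ⟨y + z, by rw [map_add]; exact add_mem hy hz, map_add _ _ _⟩
  algebraMap_mem' := by
    intro c
    obtain ⟨a, rfl⟩ := IsLocalRing.residue_surjective (R := A) c
    refine ⟨HahnSeries.single 0 a, ?_, ?_⟩
    · rw [coeffMap_single]
      have h : (HahnSeries.single 0 (A.subtype a) : LaurentSeries (AlgebraicClosure ℚ)) =
          algebraMap (AlgebraicClosure ℚ) (LaurentSeries (AlgebraicClosure ℚ)) (A.subtype a) :=
        (algebraMap_laurentSeries_eq_single (AlgebraicClosure ℚ) (A.subtype a)).symm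
      rw [h]
      exact (modularFunctionFieldBar N).algebraMap_mem _
    · rw [coeffMap_single]
      exact (algebraMap_laurentSeries_eq_single (IsLocalRing.ResidueField A) _).symm

theorem mem_liftable {x : LaurentSeries (IsLocalRing.ResidueField A)} :
    x ∈ liftable A N ↔ ∃ y : LaurentSeries A, coeffMap A.subtype y ∈ modularFunctionFieldBar N ∧
      coeffMap (IsLocalRing.residue A) y = x := Iff.rfl

theorem divisorExpansionsC_subset_liftable :
    divisorExpansionsC (IsLocalRing.ResidueField A) N ⊆ (liftable A N : Set _) := by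
  rintro x ⟨d, hd, hdN, rfl⟩
  have := hd
  refine ⟨qExpand A d (jqModC A), ?_, ?_⟩
  · rw [coeffMap_qExpand, coeffMap_jqModC]
    have h1 : qExpand (AlgebraicClosure ℚ) d (jqModC (AlgebraicClosure ℚ)) =
        coeffEmb (AlgebraicClosure ℚ) (qExpand ℚ d jq) := by
      rw [coeffEmb, coeffMap_qExpand, ← jqModC_rat, coeffMap_jqModC]
    rw [h1]
    exact coeffEmb_mem_laurentBaseChange (AlgebraicClosure ℚ) (jqd_mem_full N hdN)
  · rw [coeffMap_qExpand, coeffMap_jqModC]

theorem algebraAdjoin_le_liftable :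
    Algebra.adjoin (IsLocalRing.ResidueField A)
      (divisorExpansionsC (IsLocalRing.ResidueField A) N) ≤ liftable A N :=
  Algebra.adjoin_le (divisorExpansionsC_subset_liftable A N)

/-- (B1) every nonzero element of the function field in characteristic `ℓ` is a quotient of
reductions of integral modular functions. -/
theorem exists_intFun_quot
    (g : modularFunctionFieldFullC (IsLocalRing.ResidueField A) N) (hg : g ≠ 0) :
    ∃ G₁ G₂ : IntFun A N, g * G₂.red = G₁.red := by
  have hgmem : (g : LaurentSeries (IsLocalRing.ResidueField A)) ∈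
      IntermediateField.adjoin (IsLocalRing.ResidueField A)
        (divisorExpansionsC (IsLocalRing.ResidueField A) N) := g.2
  rw [mem_adjoin_iff_div] at hgmem
  obtain ⟨a, ha, b, hb, hab⟩ := hgmem
  have hg' : (g : LaurentSeries (IsLocalRing.ResidueField A)) ≠ 0 := fun h => hg (Subtype.ext h)
  have hb0 : b ≠ 0 := by
    rintro rfl
    rw [div_zero] at hab
    exact hg' hab
  have ha0 : a ≠ 0 := by
    rintro rfl
    rw [zero_div] at hab
    exact hg' hab
  obtain ⟨ya, hya, rfl⟩ := algebraAdjoin_le_liftable A N ha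
  obtain ⟨yb, hyb, rfl⟩ := algebraAdjoin_le_liftable A N hb
  have hle := IntermediateField.algebra_adjoin_le_adjoin (IsLocalRing.ResidueField A)
    (divisorExpansionsC (IsLocalRing.ResidueField A) N)
  refine ⟨⟨ya, hya, hle ha, ha0⟩, ⟨yb, hyb, hle hb, hb0⟩, ?_⟩
  apply Subtype.ext
  show (g : LaurentSeries (IsLocalRing.ResidueField A)) * coeffMap (IsLocalRing.residue A) yb =
    coeffMap (IsLocalRing.residue A) ya
  rw [hab, div_mul_cancel₀ _ hb0]

variable {A N}

/-- Every divisor in the closure of the integral principal divisors is the divisor of a quotient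
of two integral functions, compatibly with any place reduction map. -/
theorem exists_intFun_of_mem_closure
    {r : Place (AlgebraicClosure ℚ) (modularFunctionFieldBar N) →
      Place (IsLocalRing.ResidueField A) (modularFunctionFieldFullC (IsLocalRing.ResidueField A) N)}
    (hr : IsPlaceReductionModL A N r)
    {E : Divisor (AlgebraicClosure ℚ) (modularFunctionFieldBar N)}
    (hE : E ∈ AddSubgroup.closure (integralPrincipalDivisors A (IsLocalRing.residue A) N)) :
    ∃ Y₁ Y₂ : IntFun A N,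
      (∀ P, E P = P.ord Y₁.gen - P.ord Y₂.gen) ∧
      (∀ Q, Finsupp.mapDomain r E Q = Q.ord Y₁.red - Q.ord Y₂.red) := by
  induction hE using AddSubgroup.closure_induction with
  | mem E hE =>
    obtain ⟨y, hy, hyk, hne, hEy⟩ := hE
    refine ⟨⟨y, hy, hyk, hne⟩, IntFun.one, fun P => ?_, fun Q => ?_⟩
    · rw [IntFun.gen_one, Place.ord_one, sub_zero]
      exact hEy P
    · rw [IntFun.red_one, Place.ord_one, sub_zero]
      exact hr.2 y hy hyk hne E hEy Q
  | zero =>
    refine ⟨IntFun.one, IntFun.one, fun P => ?_, fun Q => ?_⟩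
    · simp
    · simp
  | add E E' _ _ hE hE' =>
    obtain ⟨Y₁, Y₂, h1, h2⟩ := hE
    obtain ⟨Z₁, Z₂, h3, h4⟩ := hE'
    refine ⟨Y₁.mul Z₁, Y₂.mul Z₂, fun P => ?_, fun Q => ?_⟩
    · rw [Finsupp.add_apply, h1, h3, IntFun.gen_mul, IntFun.gen_mul,
        P.ord_mul Y₁.gen_ne_zero Z₁.gen_ne_zero, P.ord_mul Y₂.gen_ne_zero Z₂.gen_ne_zero]
      ring
    · rw [Finsupp.mapDomain_add, Finsupp.add_apply, h2, h4, IntFun.red_mul, IntFun.red_mul,
        Q.ord_mul Y₁.red_ne_zero Z₁.red_ne_zero, Q.ord_mul Y₂.red_ne_zero Z₂.red_ne_zero]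
      ring
  | neg E _ hE =>
    obtain ⟨Y₁, Y₂, h1, h2⟩ := hE
    refine ⟨Y₂, Y₁, fun P => ?_, fun Q => ?_⟩
    · rw [Finsupp.neg_apply, h1]; ring
    · have h5 : Finsupp.mapDomain r (-E) = -Finsupp.mapDomain r E := by
        rw [← Finsupp.mapDomain.addMonoidHom_apply, map_neg, Finsupp.mapDomain.addMonoidHom_apply]
      rw [h5, Finsupp.neg_apply, h2]; ring

/-- **S18 from the gate.** -/
theorem eq_zero_of_gate [NeZero N]
    (h : ModularCurve.ReductionInputsModL A N) (m : ℕ) (hm0 : m ≠ 0)
    (hgate : TorsionGate A N m) (z : ModularCurve.JZero N)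
    (hmz : m • z = 0) (hz : ModularCurve.reductionModL A N z = 0) : z = 0 := by
  obtain ⟨D, rfl⟩ := Pic0.mk_surjective z
  set r := placeReductionModL h with hrdef
  have hr : IsPlaceReductionModL A N r := isPlaceReductionModL_placeReductionModL h
  have hgen : PrincipalGeneratedByIntegral A (IsLocalRing.residue A) N := h.choose_spec.2
  -- `m • D` is principal
  have h1 : (m • (D : Divisor (AlgebraicClosure ℚ) (modularFunctionFieldBar N))) ∈
      Divisor.principal (K := AlgebraicClosure ℚ) (F := modularFunctionFieldBar N) := by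
    have h2 : Pic0.mk (m • D) = 0 := hmz
    have h3 := (QuotientAddGroup.eq_zero_iff (m • D)).mp h2
    rw [AddSubgroup.mem_addSubgroupOf, AddSubgroupClass.coe_nsmul] at h3
    exact h3
  -- the reduction of `D` is principal
  obtain ⟨gbar, hgbar0, hgbar⟩ : Divisor.IsPrincipal
      (Finsupp.mapDomain r (D : Divisor (AlgebraicClosure ℚ) (modularFunctionFieldBar N))) := by
    rw [reductionModL_mk h D] at hz
    have h3 := (QuotientAddGroup.eq_zero_iff _).mp hz
    rw [AddSubgroup.mem_addSubgroupOf, coe_reductionDegZeroAlong] at h3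
    exact h3
  -- integral representatives
  obtain ⟨Y₁, Y₂, hY, hYr⟩ := exists_intFun_of_mem_closure hr (hgen h1)
  obtain ⟨G₁, G₂, hG⟩ := exists_intFun_quot A N gbar hgbar0
  have hordg : ∀ Q : Place (IsLocalRing.ResidueField A)
      (modularFunctionFieldFullC (IsLocalRing.ResidueField A) N),
      Q.ord gbar = Q.ord G₁.red - Q.ord G₂.red := by
    intro Q
    rw [← hG, Q.ord_mul hgbar0 G₂.red_ne_zero]; ring
  -- apply the gate to `Y₁ G₂^m` and `Y₂ G₁^m`
  obtain ⟨g, hg0, hg⟩ := hgate (Y₁.mul (G₂.pow m)) (Y₂.mul (G₁.pow m)) (fun Q => by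
      have e1 := hYr Q
      have e2 : Finsupp.mapDomain r
          (m • (D : Divisor (AlgebraicClosure ℚ) (modularFunctionFieldBar N))) Q =
          m * Finsupp.mapDomain r (D : Divisor (AlgebraicClosure ℚ) (modularFunctionFieldBar N)) Q := by
        rw [Finsupp.mapDomain_smul, Finsupp.smul_apply, nsmul_eq_mul]
      rw [e2, hgbar Q, hordg Q] at e1
      rw [IntFun.red_mul, IntFun.red_mul, IntFun.red_pow, IntFun.red_pow,
        Q.ord_mul Y₁.red_ne_zero (pow_ne_zero m G₂.red_ne_zero),
        Q.ord_mul Y₂.red_ne_zero (pow_ne_zero m G₁.red_ne_zero),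
        ← zpow_natCast, ← zpow_natCast, Q.ord_zpow, Q.ord_zpow]
      linarith)
    (fun P => by
      have e1 := hY P
      rw [Finsupp.smul_apply, nsmul_eq_mul] at e1
      rw [IntFun.gen_mul, IntFun.gen_mul, IntFun.gen_pow, IntFun.gen_pow,
        P.ord_mul Y₁.gen_ne_zero (pow_ne_zero m G₂.gen_ne_zero),
        P.ord_mul Y₂.gen_ne_zero (pow_ne_zero m G₁.gen_ne_zero),
        ← zpow_natCast, ← zpow_natCast, P.ord_zpow, P.ord_zpow]
      refine ⟨(D : Divisor (AlgebraicClosure ℚ) (modularFunctionFieldBar N)) P +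
        P.ord G₂.gen - P.ord G₁.gen, ?_⟩
      linarith)
  -- conclude: `D` is principal
  rw [Pic0.mk, QuotientAddGroup.eq_zero_iff, AddSubgroup.mem_addSubgroupOf]
  have hG2inv : G₂.gen⁻¹ ≠ 0 := inv_ne_zero G₂.gen_ne_zero
  refine ⟨g * G₁.gen * G₂.gen⁻¹, mul_ne_zero (mul_ne_zero hg0 G₁.gen_ne_zero) hG2inv, fun P => ?_⟩
  have e1 := hY P
  rw [Finsupp.smul_apply, nsmul_eq_mul] at e1
  have e2 := hg P
  rw [IntFun.gen_mul, IntFun.gen_mul, IntFun.gen_pow, IntFun.gen_pow,
    P.ord_mul Y₁.gen_ne_zero (pow_ne_zero m G₂.gen_ne_zero),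
    P.ord_mul Y₂.gen_ne_zero (pow_ne_zero m G₁.gen_ne_zero),
    ← zpow_natCast, ← zpow_natCast, P.ord_zpow, P.ord_zpow] at e2
  rw [P.ord_mul (mul_ne_zero hg0 G₁.gen_ne_zero) hG2inv, P.ord_mul hg0 G₁.gen_ne_zero, P.ord_inv]
  have hm' : (m : ℤ) ≠ 0 := by exact_mod_cast hm0
  have e3 : (m : ℤ) * (D : Divisor (AlgebraicClosure ℚ) (modularFunctionFieldBar N)) P =
      (m : ℤ) * (P.ord g + P.ord G₁.gen - P.ord G₂.gen) := by
    linarith
  exact mul_left_cancel₀ hm' e3

/-- The frozen statement S18 follows from `TorsionGateStatement`. -/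
theorem S18_of_gateStatement (hgate : TorsionGateStatement)
    (N : ℕ) [NeZero N] {ℓ : ℕ}
    [Fact ℓ.Prime] (hℓN : ¬ ℓ ∣ N) (A : ValuationSubring (AlgebraicClosure ℚ))
    (hA : A.LiesOverPrime ℓ)
    (h : ModularCurve.ReductionInputsModL A N) (m : ℕ) (hm : ¬ ℓ ∣ m) (z : ModularCurve.JZero N)
    (hmz : m • z = 0) (hz : ModularCurve.reductionModL A N z = 0) :
    z = 0 :=
  eq_zero_of_gate h m (fun h0 => hm (h0 ▸ dvd_zero ℓ))
    (hgate N ℓ (Fact.out) hℓN A hA m hm) z hmz hz

end Fermat.Agent.S18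

end
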