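import Mathlib
import Fermat.Agent.S18.H18Gate
import Fermat.Agent.S37.Gate

/-!
# S18 adapter (R-S18): frozen interfaces

Target: `Fermat.Agent.S37.Gate N → TorsionGate A N m`.  The only missing mathematical input is
that a function of `F_k = k(j̄(q^d) : d ∣ N)` without zeros and poles is constant.

Interfaces (all `def … : Prop`):
* `IfaceResidueAlgClosed` : the residue field of a valuation subring of an algebraically closed
  field is algebraically closed;
* `IfaceAlgebraicModL` : `j̄(q^d)` is algebraic over `k(j̄)` in `k((q))`, for every field `k`;
* `IfaceFiniteModL` : `F_k` is finite over `k(x)` for every `x ∈ F_k` transcendental over `k`;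
* `IfacePlaceExists` : (general function fields) existence of a place with `ord u > 0` for
  transcendental `u`;
* `IfaceConstModL` : a function of `F_k` without zeros and poles is constant.
-/

set_option autoImplicit false
set_option synthInstance.maxHeartbeats 400000

noncomputable section

open HahnSeries IntermediateField AlgebraicCurve ModularCurve

namespace Fermat.Agent.S18

/-- The residue field of a valuation subring of an algebraically closed field is algebraically
closed. -/
def IfaceResidueAlgClosed : Prop :=
  ∀ (K : Type) [Field K] [IsAlgClosed K] (A : ValuationSubring K),
    IsAlgClosed (IsLocalRing.ResidueField A)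

/-- `j̄(q^d)` is algebraic over `k(j̄)`, for every field `k` (any characteristic). -/
def IfaceAlgebraicModL : Prop :=
  ∀ (k : Type) [Field k] (d : ℕ) [NeZero d],
    IsAlgebraic (IntermediateField.adjoin k {jqModC k}) (qExpand k d (jqModC k))

/-- `F_k` is finite over `k(x)` for every transcendental `x`. -/
def IfaceFiniteModL : Prop :=
  ∀ (k : Type) [Field k] (N : ℕ) [NeZero N] (x : modularFunctionFieldFullC k N),
    Transcendental k x →
      FiniteDimensional (IntermediateField.adjoin k {x}) (modularFunctionFieldFullC k N)

/-- Existence of places in a function field of one variable (any characteristic): if the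
constants are algebraically closed in `F` and `F` is finite over `k(x)` for every
transcendental `x`, then every transcendental `u` has a zero. -/
def IfacePlaceExists : Prop :=
  ∀ (k F : Type) [Field k] [Field F] [Algebra k F],
    (∀ x : F, IsAlgebraic k x → x ∈ Set.range (algebraMap k F)) →
    (∀ x : F, Transcendental k x → FiniteDimensional (IntermediateField.adjoin k {x}) F) →
    ∀ u : F, Transcendental k u → ∃ Q : Place k F, 0 < Q.ord u

/-- A function of `F_k` without zeros and poles is constant (`k` algebraically closed). -/
def IfaceConstModL : Prop :=
  ∀ (k : Type) [Field k] [IsAlgClosed k] (N : ℕ) [NeZero N]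
    (u : modularFunctionFieldFullC k N), u ≠ 0 →
    (∀ Q : Place k (modularFunctionFieldFullC k N), Q.ord u = 0) →
    ∃ c : k, u = algebraMap k (modularFunctionFieldFullC k N) c

end Fermat.Agent.S18

end
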