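import Mathlib
import Fermat.Agent.S18.H18ConstSkel
import Fermat.Agent.S24.DiffPlace

/-!
# Existence of places in function fields of one variable (any characteristic)

`Fermat.Agent.S18.placeExists : IfacePlaceExists`.

Let `F / k` be a field extension such that `k` is algebraically closed in `F` and `F` is finite
over `k(x)` for every `x` transcendental over `k`.  Then

* every valuation subring `V ≠ ⊤` of `F` containing `k` is a principal ideal ring
  (`h18_isPrincipalIdealRing`; Stichtenoth, Theorem 1.1.6);
* every transcendental `u` lies in the maximal ideal of such a `V` (Chevalley), hence has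
  positive order at some place.
-/

set_option autoImplicit false

noncomputable section

open AlgebraicCurve IntermediateField Polynomial

namespace Fermat.Agent.S18

section Values

variable {k F : Type*} [Field k] [Field F] [Algebra k F]
variable (V : ValuationSubring F) (hk : ∀ a : k, algebraMap k F a ∈ V)

include hk

/-- Nonzero constants have valuation one. -/
theorem h18_valuation_const {a : k} (ha : a ≠ 0) : V.valuation (algebraMap k F a) = 1 := by
  have h1 : V.valuation (algebraMap k F a) ≤ 1 := (V.valuation_le_one_iff _).mpr (hk a)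
  have h2 : V.valuation (algebraMap k F a⁻¹) ≤ 1 := (V.valuation_le_one_iff _).mpr (hk a⁻¹)
  have h3 : V.valuation (algebraMap k F a) * V.valuation (algebraMap k F a⁻¹) = 1 := by
    rw [← map_mul, ← map_mul, mul_inv_cancel₀ ha, map_one, map_one]
  rcases h1.lt_or_eq with h | h
  · exfalso
    have h4 : V.valuation (algebraMap k F a) * V.valuation (algebraMap k F a⁻¹) < 1 := by
      calc V.valuation (algebraMap k F a) * V.valuation (algebraMap k F a⁻¹)
          ≤ V.valuation (algebraMap k F a) * 1 := mul_le_mul_right h2 _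
        _ = V.valuation (algebraMap k F a) := mul_one _
        _ < 1 := h
    rw [h3] at h4
    exact lt_irrefl _ h4
  · exact h

/-- Polynomials in an element of `V` lie in `V`. -/
theorem h18_aeval_mem {x : F} (hx : x ∈ V) (p : k[X]) : aeval x p ∈ V := by
  induction p using Polynomial.induction_on' with
  | add p q hp hq => rw [map_add]; exact V.add_mem _ _ hp hq
  | monomial n a =>
    rw [aeval_monomial]
    exact V.mul_mem _ _ (hk a) (pow_mem hx n)

/-- A polynomial with nonzero constant term takes a unit value at a non-unit. -/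
theorem h18_valuation_aeval_of_coeff_zero_ne {x : F} (hx : V.valuation x < 1) {p : k[X]}
    (hp : p.coeff 0 ≠ 0) : V.valuation (aeval x p) = 1 := by
  have hxV : x ∈ V := (V.valuation_le_one_iff x).mp hx.le
  have h1 : aeval x p = algebraMap k F (p.coeff 0) + x * aeval x p.divX := by
    conv_lhs => rw [← Polynomial.divX_mul_X_add p]
    rw [map_add, map_mul, aeval_X, aeval_C]
    ring
  have h2 : V.valuation (x * aeval x p.divX) < 1 := by
    rw [map_mul]
    have h3 : V.valuation (aeval x p.divX) ≤ 1 :=
      (V.valuation_le_one_iff _).mpr (h18_aeval_mem V hk hxV _)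
    calc V.valuation x * V.valuation (aeval x p.divX) ≤ V.valuation x * 1 :=
          mul_le_mul_right h3 _
      _ = V.valuation x := mul_one _
      _ < 1 := hx
  have h4 := h18_valuation_const V hk hp
  rw [h1, Valuation.map_add_eq_of_lt_left _ (by rw [h4]; exact h2), h4]

/-- The valuation of a nonzero polynomial in a non-unit `x` is a power of the valuation of
`x`. -/
theorem h18_valuation_aeval {x : F} (hx : V.valuation x < 1) {p : k[X]} (hp : p ≠ 0) :
    ∃ m : ℕ, V.valuation (aeval x p) = V.valuation x ^ m := by
  refine ⟨p.rootMultiplicity 0, ?_⟩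
  have h1 := Polynomial.pow_mul_divByMonic_rootMultiplicity_eq p 0
  have h2 := Polynomial.eval_divByMonic_pow_rootMultiplicity_ne_zero (0 : k) hp
  set q := p /ₘ (X - C (0 : k)) ^ p.rootMultiplicity 0 with hq
  have h3 : q.coeff 0 ≠ 0 := by
    rw [Polynomial.coeff_zero_eq_eval_zero]
    exact h2
  have h4 : aeval x p = x ^ p.rootMultiplicity 0 * aeval x q := by
    conv_lhs => rw [← h1]
    rw [map_mul, map_pow, map_sub, aeval_X, aeval_C, map_zero, sub_zero]
  rw [h4, map_mul, map_pow, h18_valuation_aeval_of_coeff_zero_ne V hk hx h3, mul_one]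

/-- The valuation of a nonzero element of `k(x)` is a quotient of two powers of the valuation
of `x`. -/
theorem h18_valuation_adjoin {x : F} (hx : V.valuation x < 1) {φ : F}
    (hφ : φ ∈ k⟮x⟯) (hφ0 : φ ≠ 0) :
    ∃ a b : ℕ, V.valuation φ * V.valuation x ^ b = V.valuation x ^ a := by
  rw [IntermediateField.mem_adjoin_simple_iff] at hφ
  obtain ⟨r, s, rfl⟩ := hφ
  have hs : aeval x s ≠ 0 := by
    intro h
    rw [h, div_zero] at hφ0
    exact hφ0 rfl
  have hr : aeval x r ≠ 0 := by
    intro h
    rw [h, zero_div] at hφ0
    exact hφ0 rfl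
  have hs0 : s ≠ 0 := by
    rintro rfl
    exact hs (map_zero _)
  have hr0 : r ≠ 0 := by
    rintro rfl
    exact hr (map_zero _)
  obtain ⟨a, ha⟩ := h18_valuation_aeval V hk hx hr0
  obtain ⟨b, hb⟩ := h18_valuation_aeval V hk hx hs0
  refine ⟨a, b, ?_⟩
  rw [← ha, ← hb, ← map_mul, div_mul_cancel₀ _ hs]

/-- Key separation of values. -/
theorem h18_valuation_mul_ne {x : F} (hx0 : x ≠ 0) (hx : V.valuation x < 1) {φ ψ y y' : F}
    (hφ : φ ∈ k⟮x⟯) (hφ0 : φ ≠ 0) (hψ : ψ ∈ k⟮x⟯) (hψ0 : ψ ≠ 0)
    (hy : V.valuation x ≤ V.valuation y) (hy1 : V.valuation y < 1)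
    (hy' : V.valuation x ≤ V.valuation y') (hy1' : V.valuation y' < 1)
    (hne : V.valuation y ≠ V.valuation y') :
    V.valuation (φ * y) ≠ V.valuation (ψ * y') := by
  intro heq
  obtain ⟨a, b, hab⟩ := h18_valuation_adjoin V hk hx hφ hφ0
  obtain ⟨c, d, hcd⟩ := h18_valuation_adjoin V hk hx hψ hψ0
  set t := V.valuation x with ht
  have ht0 : t ≠ 0 := (Valuation.ne_zero_iff _).mpr hx0
  have htpos : 0 < t := zero_lt_iff.mpr ht0
  -- `t ^ (a + d) * v y = t ^ (c + b) * v y'`
  have key : t ^ (a + d) * V.valuation y = t ^ (c + b) * V.valuation y' := by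
    have e1 : V.valuation φ * V.valuation y = V.valuation ψ * V.valuation y' := by
      rw [← map_mul, ← map_mul]; exact heq
    calc t ^ (a + d) * V.valuation y
        = (V.valuation φ * t ^ b) * t ^ d * V.valuation y := by rw [hab, pow_add]
      _ = (V.valuation φ * V.valuation y) * t ^ b * t ^ d := by ac_rfl
      _ = (V.valuation ψ * V.valuation y') * t ^ b * t ^ d := by rw [e1]
      _ = (V.valuation ψ * t ^ d) * t ^ b * V.valuation y' := by ac_rfl
      _ = t ^ (c + b) * V.valuation y' := by rw [hcd, pow_add]
  -- general principle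
  have aux : ∀ (m n : ℕ) (z z' : V.ValueGroup), t ≤ z → z' < 1 → z ≠ z' →
      m ≤ n → t ^ m * z = t ^ n * z' → False := by
    intro m n z z' hz hz' hzz hmn h
    obtain ⟨e, rfl⟩ := Nat.exists_eq_add_of_le hmn
    rw [pow_add, mul_assoc] at h
    have h2 : z = t ^ e * z' := mul_left_cancel₀ (pow_ne_zero m ht0) h
    rcases Nat.eq_zero_or_pos e with rfl | he
    · rw [pow_zero, one_mul] at h2
      exact hzz h2
    · have h3 : t ^ e ≤ t := by
        calc t ^ e = t ^ (e - 1) * t := by rw [← pow_succ]; congr 1; omega
          _ ≤ 1 * t := mul_le_mul_left (pow_le_one₀ zero_le hx.le) _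
          _ = t := one_mul _
      have h4 : z < t := by
        rw [h2]
        calc t ^ e * z' ≤ t * z' := mul_le_mul_left h3 _
          _ < t * 1 := by
            exact (mul_lt_mul_iff_right₀ htpos).mpr hz'
          _ = t := mul_one _
      exact absurd hz (not_le.mpr h4)
  rcases le_total (a + d) (c + b) with h | h
  · exact aux _ _ _ _ hy hy1' hne h key
  · exact aux _ _ _ _ hy' hy1 (Ne.symm hne) h key.symm

/-- Elements whose values are pairwise distinct and lie in `[v x, 1)` are linearly independent
over `k(x)`. -/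
theorem h18_linearIndependent {x : F} (hx0 : x ≠ 0) (hx : V.valuation x < 1) {n : ℕ}
    (y : Fin n → F) (hy : ∀ i, V.valuation x ≤ V.valuation (y i))
    (hy1 : ∀ i, V.valuation (y i) < 1)
    (hinj : Function.Injective fun i => V.valuation (y i)) :
    LinearIndependent k⟮x⟯ y := by
  classical
  rw [Fintype.linearIndependent_iff]
  intro g hg
  by_contra hcon
  push Not at hcon
  obtain ⟨i₀, hi₀⟩ := hcon
  have ht0 : V.valuation x ≠ 0 := (Valuation.ne_zero_iff _).mpr hx0
  have hy0 : ∀ i, y i ≠ 0 := by
    intro i h
    have := hy i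
    rw [h, map_zero] at this
    exact ht0 (le_antisymm this zero_le)
  set S : Finset (Fin n) := Finset.univ.filter fun i => g i ≠ 0 with hS
  have hSne : S.Nonempty := ⟨i₀, by simp [hS, hi₀]⟩
  obtain ⟨j, hjS, hjmax⟩ := Finset.exists_max_image S
    (fun i => V.valuation ((g i : F) * y i)) hSne
  have hgj : g j ≠ 0 := by
    have := hjS
    simp only [hS, Finset.mem_filter, Finset.mem_univ, true_and] at this
    exact this
  have hgjF : (g j : F) ≠ 0 := fun h => hgj (Subtype.ext h)
  have hvj : V.valuation ((g j : F) * y j) ≠ 0 :=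
    (Valuation.ne_zero_iff _).mpr (mul_ne_zero hgjF (hy0 j))
  have hsum : V.valuation (∑ i, (g i : F) * y i) = V.valuation ((g j : F) * y j) := by
    apply Valuation.map_sum_eq_of_lt _ (Finset.mem_univ j)
    intro i hi
    have hij : i ≠ j := by
      simp only [Finset.mem_sdiff, Finset.mem_univ, Finset.mem_singleton, true_and] at hi
      exact hi
    by_cases hgi : g i = 0
    · rw [hgi]
      simp only [ZeroMemClass.coe_zero, zero_mul, map_zero]
      exact zero_lt_iff.mpr hvj
    · have hiS : i ∈ S := by simp [hS, hgi]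
      have hle := hjmax i hiS
      have hgiF : (g i : F) ≠ 0 := fun h => hgi (Subtype.ext h)
      have hne := h18_valuation_mul_ne V hk hx0 hx (g i).2 hgiF (g j).2 hgjF
        (hy i) (hy1 i) (hy j) (hy1 j) (fun h => hij (hinj h))
      exact lt_of_le_of_ne hle hne
  have hzero : (∑ i, (g i : F) * y i) = 0 := by
    have : (∑ i, g i • y i) = ∑ i, (g i : F) * y i := by
      refine Finset.sum_congr rfl fun i _ => ?_
      rw [IntermediateField.smul_def, smul_eq_mul]
    rw [← this]
    exact hg
  rw [hzero, map_zero] at hsum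
  exact hvj hsum.symm

end Values

section PID

variable {k F : Type*} [Field k] [Field F] [Algebra k F]

/-- **Stichtenoth, Theorem 1.1.6.**  In a function field of one variable, every valuation
subring `≠ ⊤` containing the constants is a principal ideal ring. -/
theorem h18_isPrincipalIdealRing
    (hconst : ∀ x : F, IsAlgebraic k x → x ∈ Set.range (algebraMap k F))
    (hfin : ∀ x : F, Transcendental k x → FiniteDimensional k⟮x⟯ F)
    (V : ValuationSubring F) (hk : ∀ a : k, algebraMap k F a ∈ V) :
    IsPrincipalIdealRing V := by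
  have hwf : WfDvdMonoid V := by
    refine ⟨wellFounded_iff_isEmpty_descending_chain.mpr ⟨fun ⟨f, hf⟩ => ?_⟩⟩
    -- values strictly increase along the chain
    have hne : ∀ n, f (n + 1) ≠ 0 := fun n => (hf n).1
    have hlt : ∀ n, V.valuation (f n : F) < V.valuation (f (n + 1) : F) := by
      intro n
      obtain ⟨-, c, hc, hfc⟩ := hf n
      have hcv : V.valuation (c : F) < 1 := by
        rcases V.valuation_lt_one_or_eq_one c with h | h
        · exact h
        · exact absurd ((V.valuation_eq_one_iff c).mpr h) hc
      have hpos : 0 < V.valuation (f (n + 1) : F) := by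
        rw [zero_lt_iff, Valuation.ne_zero_iff]
        exact fun h => hne n (Subtype.ext h)
      rw [hfc]
      push_cast
      rw [map_mul]
      calc V.valuation (f (n + 1) : F) * V.valuation (c : F)
          < V.valuation (f (n + 1) : F) * 1 := (mul_lt_mul_iff_right₀ hpos).mpr hcv
        _ = V.valuation (f (n + 1) : F) := mul_one _
    have hmono : StrictMono fun n => V.valuation (f n : F) := strictMono_nat_of_lt_succ hlt
    have hlt1 : ∀ n, V.valuation (f n : F) < 1 :=
      fun n => lt_of_lt_of_le (hlt n) (V.valuation_le_one _)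
    -- `x = f 1` is transcendental
    set x : F := (f 1 : F) with hx
    have hx0 : x ≠ 0 := fun h => hne 0 (Subtype.ext h)
    have hxt : Transcendental k x := by
      intro halg
      obtain ⟨a, ha⟩ := hconst x halg
      have ha0 : a ≠ 0 := by
        rintro rfl
        rw [map_zero] at ha
        exact hx0 ha.symm
      have := h18_valuation_const V hk ha0
      rw [ha] at this
      exact absurd this (hlt1 1).ne
    have hfd := hfin x hxt
    -- a long chain of linearly independent elements
    set N := Module.finrank k⟮x⟯ F with hN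
    have hli := h18_linearIndependent V hk hx0 (hlt1 1) (n := N + 1)
      (fun i => (f (1 + (i : ℕ)) : F))
      (fun i => hmono.monotone (Nat.le_add_right 1 _))
      (fun i => hlt1 _)
      (fun i j hij => by
        have h1 := hmono.injective hij
        exact Fin.ext (by omega))
    have hcard := hli.fintype_card_le_finrank
    rw [Fintype.card_fin] at hcard
    omega
  exact ((IsBezout.TFAE (R := V)).out 1 3).mpr hwf

/-- packaging a valuation subring as a place -/
theorem h18_place_of (B : ValuationSubring F) (hk : ∀ a : k, algebraMap k F a ∈ B)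
    (hBtop : B ≠ ⊤) (hpid : IsPrincipalIdealRing B) {u : F} (hu0 : u ≠ 0) (huB : u ∈ B)
    (hmem : (⟨u, huB⟩ : B) ∈ IsLocalRing.maximalIdeal B) :
    ∃ Q : Place k F, 0 < Q.ord u :=
  ⟨⟨B, hk, hBtop, hpid⟩,
    Fermat.Agent.S24.DiffPlace.ord_pos_of_mem_maximalIdeal (⟨B, hk, hBtop, hpid⟩ : Place k F)
      (z := ⟨u, huB⟩) hmem (fun h => hu0 (congrArg Subtype.val h))⟩

/-- **Existence of places.** -/
theorem placeExists : IfacePlaceExists := by
  intro k F _ _ _ hconst hfin u hu
  -- the subring `k[u]` and the ideal `(u)`
  set A : Subring F := (Algebra.adjoin k {u}).toSubring with hA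
  have huA : u ∈ A := Algebra.self_mem_adjoin_singleton k u
  have hI : Ideal.span {(⟨u, huA⟩ : A)} ≠ ⊤ := by
    intro htop
    rw [Ideal.span_singleton_eq_top] at htop
    obtain ⟨⟨w, hw⟩, hw1⟩ := isUnit_iff_exists_inv.mp htop
    have hw' : w ∈ Algebra.adjoin k {u} := hw
    rw [Algebra.adjoin_singleton_eq_range_aeval] at hw'
    obtain ⟨p, hp⟩ := hw'
    have h1 : u * w = 1 := congrArg Subtype.val hw1
    apply hu
    refine ⟨X * p - 1, ?_, ?_⟩
    · intro h0
      have := congrArg (fun q : k[X] => q.coeff 0) h0
      simp at this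
    · have hp' : aeval u p = w := hp
      rw [map_sub, map_mul, aeval_X, map_one, hp', h1, sub_self]
  obtain ⟨B, hAB, hB⟩ := Ideal.image_subset_nonunits_valuationSubring _ hI
  have hk : ∀ a : k, algebraMap k F a ∈ B := fun a =>
    hAB ((Algebra.adjoin k {u}).algebraMap_mem a)
  have hunon : u ∈ B.nonunits :=
    hB ⟨⟨u, huA⟩, Ideal.subset_span (Set.mem_singleton _), rfl⟩
  have hu0 : u ≠ 0 := by
    rintro rfl
    exact hu (isAlgebraic_zero)
  have hBtop : B ≠ ⊤ := by
    rintro rfl
    have h1 : (⊤ : ValuationSubring F).valuation u < 1 :=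
      (ValuationSubring.mem_nonunits_iff _).mp hunon
    have h2 : (⊤ : ValuationSubring F).valuation u⁻¹ ≤ 1 :=
      (ValuationSubring.valuation_le_one_iff _ _).mpr (ValuationSubring.mem_top _)
    have h3 : (⊤ : ValuationSubring F).valuation u * (⊤ : ValuationSubring F).valuation u⁻¹
        = 1 := by
      rw [← map_mul, mul_inv_cancel₀ hu0, map_one]
    have hpos : 0 < (⊤ : ValuationSubring F).valuation u := by
      rw [zero_lt_iff, Valuation.ne_zero_iff]; exact hu0
    have h4 : (⊤ : ValuationSubring F).valuation u * (⊤ : ValuationSubring F).valuation u⁻¹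
        < 1 := by
      calc (⊤ : ValuationSubring F).valuation u * (⊤ : ValuationSubring F).valuation u⁻¹
          ≤ (⊤ : ValuationSubring F).valuation u * 1 := mul_le_mul_right h2 _
        _ = (⊤ : ValuationSubring F).valuation u := mul_one _
        _ < 1 := h1
    rw [h3] at h4
    exact lt_irrefl _ h4
  have hpid : IsPrincipalIdealRing B := h18_isPrincipalIdealRing hconst hfin B hk
  have huB : u ∈ B := (B.valuation_le_one_iff u).mp ((B.mem_nonunits_iff).mp hunon).le
  have hmem : (⟨u, huB⟩ : B) ∈ IsLocalRing.maximalIdeal B := by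
    rw [ValuationSubring.valuation_lt_one_iff]
    exact (B.mem_nonunits_iff).mp hunon
  exact h18_place_of B hk hBtop hpid hu0 huB hmem

end PID

end Fermat.Agent.S18

end
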