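import Mathlib
import Fermat.Agent.S18.H18ConstSkel
import Fermat.Agent.S18.H18Places
import Fermat.Agent.S18.H18Assembly

/-!
# S18 adapter (R-S18e): from the gate of P-RED to the frozen statement S18

* `constModL_of` : `IfaceFiniteModL → IfaceConstModL` (functions of `F_k` without zeros and
  poles are constant), via `placeExists`;
* `torsionGate_of_gate` : `Fermat.Agent.S37.Gate N` implies `TorsionGate A N m`;
* `torsionGateStatement_of` : the gate at all levels implies `TorsionGateStatement`;
* `S18_of_gate` : the frozen statement S18 from the gate and the three small interfaces.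
-/

set_option autoImplicit false
set_option synthInstance.maxHeartbeats 400000

noncomputable section

open HahnSeries IntermediateField AlgebraicCurve ModularCurve

namespace Fermat.Agent.S18

/-- Over an algebraically closed field, algebraic elements of an extension field are
constants. -/
theorem h18_mem_range_of_isAlgebraic {k F : Type*} [Field k] [IsAlgClosed k] [Field F]
    [Algebra k F] (x : F) (hx : IsAlgebraic k x) : x ∈ Set.range (algebraMap k F) := by
  have hint : IsIntegral k x := hx.isIntegral
  exact minpoly.mem_range_of_degree_eq_one k x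
    (IsAlgClosed.degree_eq_one_of_irreducible k (minpoly.irreducible hint))

/-- Functions of `F_k` without zeros and poles are constant. -/
theorem constModL_of (hfin : IfaceFiniteModL) : IfaceConstModL := by
  intro k _ _ N _ u hu0 hord
  by_contra hcon
  have hut : Transcendental k u := by
    intro halg
    obtain ⟨c, hc⟩ := h18_mem_range_of_isAlgebraic u halg
    exact hcon ⟨c, hc.symm⟩
  obtain ⟨Q, hQ⟩ := placeExists k (modularFunctionFieldFullC k N)
    (fun x hx => h18_mem_range_of_isAlgebraic x hx) (hfin k N) u hut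
  rw [hord Q] at hQ
  exact lt_irrefl _ hQ

variable {A : ValuationSubring (AlgebraicClosure ℚ)} {N : ℕ}

/-- The gate of P-RED implies the gate consumed by the S18 assembly. -/
theorem torsionGate_of_gate [NeZero N] (hres : IfaceResidueAlgClosed) (hconst : IfaceConstModL)
    (hgate : Fermat.Agent.S37.Gate N) {ℓ : ℕ} (hℓ : ℓ.Prime) (hℓN : ¬ ℓ ∣ N)
    (hA : A.LiesOverPrime ℓ) (m : ℕ) (hm : ¬ ℓ ∣ m) : TorsionGate A N m := by
  intro Y₁ Y₂ hQ hP
  have hm0 : m ≠ 0 := fun h0 => hm (h0 ▸ dvd_zero ℓ)
  have : IsAlgClosed (IsLocalRing.ResidueField A) := hres (AlgebraicClosure ℚ) A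
  -- the quotient of the reductions is a constant
  have hu0 : Y₁.red * Y₂.red⁻¹ ≠ 0 := mul_ne_zero Y₁.red_ne_zero (inv_ne_zero Y₂.red_ne_zero)
  obtain ⟨cbar, hcbar⟩ := hconst (IsLocalRing.ResidueField A) N (Y₁.red * Y₂.red⁻¹) hu0
    (fun Q => by
      rw [Q.ord_mul Y₁.red_ne_zero (inv_ne_zero Y₂.red_ne_zero), Q.ord_inv, hQ Q]
      ring)
  have hcbar0 : cbar ≠ 0 := by
    rintro rfl
    rw [map_zero] at hcbar
    exact hu0 hcbar
  obtain ⟨c, rfl⟩ := IsLocalRing.residue_surjective (R := A) cbar
  have hc0 : (c : AlgebraicClosure ℚ) ≠ 0 := by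
    intro h
    apply hcbar0
    have : c = 0 := Subtype.ext h
    rw [this, map_zero]
  -- the element `w = Y₁ / (c Y₂)`
  have hcst0 : algebraMap (AlgebraicClosure ℚ) (modularFunctionFieldBar N)
      (c : AlgebraicClosure ℚ) ≠ 0 := by
    rw [Ne, map_eq_zero_iff _ (algebraMap (AlgebraicClosure ℚ) (modularFunctionFieldBar N)).injective]
    exact hc0
  set w : modularFunctionFieldBar N :=
    Y₁.gen * (algebraMap (AlgebraicClosure ℚ) (modularFunctionFieldBar N) (c : AlgebraicClosure ℚ)
      * Y₂.gen)⁻¹ with hw
  have hden0 : algebraMap (AlgebraicClosure ℚ) (modularFunctionFieldBar N)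
      (c : AlgebraicClosure ℚ) * Y₂.gen ≠ 0 := mul_ne_zero hcst0 Y₂.gen_ne_zero
  have hw0 : w ≠ 0 := mul_ne_zero Y₁.gen_ne_zero (inv_ne_zero hden0)
  have hordw : ∀ P : Place (AlgebraicClosure ℚ) (modularFunctionFieldBar N),
      P.ord w = P.ord Y₁.gen - P.ord Y₂.gen := by
    intro P
    rw [hw, P.ord_mul Y₁.gen_ne_zero (inv_ne_zero hden0), P.ord_inv,
      P.ord_mul hcst0 Y₂.gen_ne_zero, Fermat.Agent.S24.DiffPlace.ord_algebraMap]
    ring
  -- `w ≡ 1`
  have hcong : Fermat.Agent.S37.CongOne A w := by
    refine ⟨Y₁.y, HahnSeries.single 0 c * Y₂.y, ?_, ?_, ?_⟩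
    · rw [map_mul, coeffMap_single]
      refine mul_ne_zero ?_ Y₂.ne
      intro h
      have := congrArg (fun s : LaurentSeries (IsLocalRing.ResidueField A) => s.coeff 0) h
      simp only [HahnSeries.coeff_single_same, HahnSeries.coeff_zero] at this
      exact hcbar0 this
    · rw [map_mul, coeffMap_single]
      have e1 : (w : LaurentSeries (AlgebraicClosure ℚ)) =
          coeffMap A.subtype Y₁.y *
            (HahnSeries.single 0 (c : AlgebraicClosure ℚ) * coeffMap A.subtype Y₂.y)⁻¹ := by
        rw [hw]
        push_cast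
        rw [algebraMap_laurentSeries_eq_single]
        rfl
      have e3 : (HahnSeries.single 0 (c : AlgebraicClosure ℚ) * coeffMap A.subtype Y₂.y :
          LaurentSeries (AlgebraicClosure ℚ)) ≠ 0 := by
        intro h0
        apply hden0
        apply Subtype.ext
        push_cast
        rw [algebraMap_laurentSeries_eq_single]
        exact h0
      rw [e1]
      show coeffMap A.subtype Y₁.y = _ * (HahnSeries.single 0 (A.subtype c) * _)
      exact (inv_mul_cancel_right₀ e3 _).symm
    · rw [map_mul, coeffMap_single]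
      have e1 : (Y₁.red : LaurentSeries (IsLocalRing.ResidueField A)) =
          ((algebraMap (IsLocalRing.ResidueField A)
            (modularFunctionFieldFullC (IsLocalRing.ResidueField A) N)
              (IsLocalRing.residue A c) * Y₂.red :
            modularFunctionFieldFullC (IsLocalRing.ResidueField A) N) :
            LaurentSeries (IsLocalRing.ResidueField A)) := by
        congr 1
        rw [← hcbar, inv_mul_cancel_right₀ Y₂.red_ne_zero]
      have e4 : coeffMap (IsLocalRing.residue A) Y₁.y =
          (Y₁.red : LaurentSeries (IsLocalRing.ResidueField A)) := rfl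
      rw [e4, e1]
      push_cast
      rw [algebraMap_laurentSeries_eq_single]
      rfl
  -- apply the gate
  obtain ⟨h, hh⟩ := hgate ℓ hℓ hℓN A hA m hm w hw0
    (fun P => by rw [hordw P]; exact hP P) hcong
  have hh0 : h ≠ 0 := by
    rintro rfl
    rw [zero_pow hm0] at hh
    exact hw0 hh.symm
  refine ⟨h, hh0, fun P => ?_⟩
  rw [← hordw P, ← hh, ← zpow_natCast, P.ord_zpow]

/-- The gate at all levels implies `TorsionGateStatement`. -/
theorem torsionGateStatement_of (hres : IfaceResidueAlgClosed) (hconst : IfaceConstModL)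
    (hgate : ∀ (N : ℕ) [NeZero N], Fermat.Agent.S37.Gate N) : TorsionGateStatement :=
  fun N _ _ hℓ hℓN _ hA m hm => torsionGate_of_gate hres hconst (hgate N) hℓ hℓN hA m hm

/-- **S18 from the gate of P-RED** (and the three small interfaces). -/
theorem S18_of_gate (hres : IfaceResidueAlgClosed) (halg : IfaceFiniteModL)
    (hgate : ∀ (N : ℕ) [NeZero N], Fermat.Agent.S37.Gate N)
    (N : ℕ) [NeZero N] {ℓ : ℕ}
    [Fact ℓ.Prime] (hℓN : ¬ ℓ ∣ N) (A : ValuationSubring (AlgebraicClosure ℚ))
    (hA : A.LiesOverPrime ℓ)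
    (h : ModularCurve.ReductionInputsModL A N) (m : ℕ) (hm : ¬ ℓ ∣ m) (z : ModularCurve.JZero N)
    (hmz : m • z = 0) (hz : ModularCurve.reductionModL A N z = 0) :
    z = 0 :=
  S18_of_gateStatement (torsionGateStatement_of hres (constModL_of halg) hgate)
    N hℓN A hA h m hm z hmz hz

end Fermat.Agent.S18

end
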