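import Fermat.Agent.S18.H18ConstSkel
import Fermat.Agent.S24.DegLe

/-!
# R-S18b: `j̄(q^d)` is algebraic over `k(j̄)` in `k((q))`, for every field `k`

The characteristic polynomial machine over `ℚ` (`Fermat.Agent.S24.h52_degLe_rat`) gives a nonzero
`P ∈ ℚ[Y][X]` with `P(j, j(q^d)) = 0`.  Clearing denominators gives `P₁ ∈ ℤ[Y][X]`, nonzero, with
`P₁(j_ℤ, j_ℤ(q^d)) = 0` in `ℤ((q))`; dividing by the exact power of the characteristic exponent
`ℓ` gives `P₂` with nonzero image in `k[Y][X]`; and `j̄` is transcendental over `k`.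

* `algebraicModL : IfaceAlgebraicModL`.
-/

set_option autoImplicit false

noncomputable section

open HahnSeries IntermediateField ModularCurve Polynomial

namespace Fermat.Agent.S18

open Fermat.Agent.S28 (evalAtQ)

/-! ### bivariate evaluation and base change of coefficients -/

/-- Evaluation `R[Y] → R((q))`, `Y ↦ y`, constants via `HahnSeries.C`. -/
def h36_evC {R : Type} [CommRing R] (y : LaurentSeries R) : Polynomial R →+* LaurentSeries R :=
  Polynomial.eval₂RingHom (HahnSeries.C : R →+* LaurentSeries R) y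

/-- `h36_evC` commutes with `coeffMap`. -/
theorem h36_coeffMap_evC {R S : Type} [CommRing R] [CommRing S] (f : R →+* S)
    (y : LaurentSeries R) (Q : Polynomial R) :
    coeffMap f (h36_evC y Q) = h36_evC (coeffMap f y) (Q.map f) := by
  have hcomp : (coeffMap f).comp (HahnSeries.C : R →+* LaurentSeries R) =
      (HahnSeries.C : S →+* LaurentSeries S).comp f := by
    ext a : 1
    simp only [RingHom.comp_apply, HahnSeries.C_apply, coeffMap_single]
  show coeffMap f (Polynomial.eval₂ _ y Q) = Polynomial.eval₂ _ (coeffMap f y) (Q.map f)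
  rw [Polynomial.hom_eval₂, hcomp, Polynomial.eval₂_map]

/-- bivariate evaluation commutes with `coeffMap`. -/
theorem h36_coeffMap_eval₂ {R S : Type} [CommRing R] [CommRing S] (f : R →+* S)
    (y x : LaurentSeries R) (P : Polynomial (Polynomial R)) :
    coeffMap f (P.eval₂ (h36_evC y) x) =
      (P.map (Polynomial.mapRingHom f)).eval₂ (h36_evC (coeffMap f y)) (coeffMap f x) := by
  have hcomp : (coeffMap f).comp (h36_evC y) =
      (h36_evC (coeffMap f y)).comp (Polynomial.mapRingHom f) := by
    refine RingHom.ext fun Q => ?_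
    simp only [RingHom.comp_apply, Polynomial.coe_mapRingHom]
    exact h36_coeffMap_evC f y Q
  rw [Polynomial.hom_eval₂, hcomp, Polynomial.eval₂_map]

theorem h36_evalAtQ_eq_evC (x : LaurentSeries ℚ) : evalAtQ x = h36_evC x := by
  have hC : (HahnSeries.C : ℚ →+* LaurentSeries ℚ) = algebraMap ℚ (LaurentSeries ℚ) := by
    ext a : 1
    rw [P2MW.S_ModularCurve_coeff_jqModC_neg_one.ModularCurve.CharLRows.algebraMap_laurentSeries_eq_single,
      HahnSeries.C_apply]
  unfold evalAtQ h36_evC
  rw [hC]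

theorem h36_coeffMap_intCast_injective (S : Type) [CommRing S] [CharZero S] :
    Function.Injective (coeffMap (Int.castRingHom S)) := by
  intro x y h
  ext n
  have h1 := congrArg (fun z => HahnSeries.coeff z n) h
  simp only [coeffMap_coeff] at h1
  exact Int.cast_injective h1

/-! ### clearing denominators -/

theorem h36_clear_one (Q : Polynomial ℚ) :
    ∃ (m : ℤ) (Q₁ : Polynomial ℤ), m ≠ 0 ∧
      Q₁.map (Int.castRingHom ℚ) = Polynomial.C (m : ℚ) * Q := by
  obtain ⟨b, hb, hQ⟩ := IsLocalization.integerNormalization_spec (nonZeroDivisors ℤ) Q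
  refine ⟨b, IsLocalization.integerNormalization (nonZeroDivisors ℤ) Q,
    nonZeroDivisors.ne_zero hb, ?_⟩
  rw [show (Int.castRingHom ℚ) = algebraMap ℤ ℚ from rfl, hQ, Polynomial.C_mul']
  rw [Algebra.smul_def]
  simp [Polynomial.smul_eq_C_mul]

theorem h36_clear_two (P : Polynomial (Polynomial ℚ)) :
    ∃ (m : ℤ) (P₁ : Polynomial (Polynomial ℤ)), m ≠ 0 ∧
      P₁.map (Polynomial.mapRingHom (Int.castRingHom ℚ)) =
        Polynomial.C (Polynomial.C (m : ℚ)) * P := by
  induction P using Polynomial.induction_on' with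
  | add P P' hP hP' =>
    obtain ⟨m, P₁, hm, h⟩ := hP
    obtain ⟨m', P₁', hm', h'⟩ := hP'
    refine ⟨m * m', Polynomial.C (Polynomial.C m') * P₁ + Polynomial.C (Polynomial.C m) * P₁',
      mul_ne_zero hm hm', ?_⟩
    rw [Polynomial.map_add, Polynomial.map_mul, Polynomial.map_mul, h, h', Polynomial.map_C,
      Polynomial.map_C, Polynomial.coe_mapRingHom, Polynomial.map_C, Polynomial.map_C]
    simp only [eq_intCast, Int.cast_mul, Polynomial.C_mul]
    ring
  | monomial i Q =>
    obtain ⟨m, Q₁, hm, h⟩ := h36_clear_one Q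
    refine ⟨m, Polynomial.monomial i Q₁, hm, ?_⟩
    rw [Polynomial.map_monomial, Polynomial.coe_mapRingHom, h, Polynomial.C_mul_monomial]

/-! ### the relation over `ℤ` -/

theorem h36_int_relation (d : ℕ) [NeZero d] :
    ∃ P₁ : Polynomial (Polynomial ℤ), P₁ ≠ 0 ∧
      P₁.eval₂ (h36_evC (jqModC ℤ)) (qExpand ℤ d (jqModC ℤ)) = 0 := by
  obtain ⟨P, hP0, -, hP⟩ := Fermat.Agent.S24.h52_degLe_rat d
    (Algebra.subset_adjoin (mem_divisorExpansions d (dvd_refl d)))
  obtain ⟨m, P₁, hm, hmap⟩ := h36_clear_two P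
  have hmQ : (Polynomial.C (Polynomial.C (m : ℚ)) : Polynomial (Polynomial ℚ)) ≠ 0 := by
    rw [Ne, Polynomial.C_eq_zero, Polynomial.C_eq_zero]
    exact_mod_cast hm
  refine ⟨P₁, ?_, ?_⟩
  · rintro rfl
    rw [Polynomial.map_zero] at hmap
    exact mul_ne_zero hmQ hP0 hmap.symm
  · apply h36_coeffMap_intCast_injective ℚ
    rw [map_zero, h36_coeffMap_eval₂, hmap, coeffMap_qExpand, coeffMap_jqModC, jqModC_rat,
      Polynomial.eval₂_mul, ← h36_evalAtQ_eq_evC, hP, mul_zero]

/-! ### reduction to a field `k` -/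

theorem h36_map_ne_zero_of_charZero (k : Type) [Field k] [CharZero k]
    {P : Polynomial (Polynomial ℤ)} (hP : P ≠ 0) :
    P.map (Polynomial.mapRingHom (Int.castRingHom k)) ≠ 0 := by
  have hinj : Function.Injective (Int.castRingHom k) := Int.cast_injective
  have h1 : Function.Injective (Polynomial.mapRingHom (Int.castRingHom k)) :=
    Polynomial.map_injective _ hinj
  rw [Ne, Polynomial.map_eq_zero_iff h1]
  exact hP

theorem h36_dvd_of_map_eq_zero (k : Type) [Field k] (ℓ : ℕ) [CharP k ℓ]
    {P : Polynomial (Polynomial ℤ)}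
    (hP : P.map (Polynomial.mapRingHom (Int.castRingHom k)) = 0) :
    Polynomial.C (Polynomial.C (ℓ : ℤ)) ∣ P := by
  rw [Polynomial.C_dvd_iff_dvd_coeff]
  intro i
  rw [Polynomial.C_dvd_iff_dvd_coeff]
  intro j
  have h1 := congrArg (fun Q : Polynomial (Polynomial k) => (Q.coeff i).coeff j) hP
  simp only [Polynomial.coeff_map, Polynomial.coe_mapRingHom, Polynomial.coeff_zero,
    eq_intCast] at h1
  exact (CharP.intCast_eq_zero_iff k ℓ _).mp h1

theorem h36_field_relation (k : Type) [Field k] (d : ℕ) [NeZero d] :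
    ∃ P : Polynomial (Polynomial k), P ≠ 0 ∧
      P.eval₂ (h36_evC (jqModC k)) (qExpand k d (jqModC k)) = 0 := by
  obtain ⟨P₁, hP₁, hrel⟩ := h36_int_relation d
  have key : ∀ P₂ : Polynomial (Polynomial ℤ),
      P₂.eval₂ (h36_evC (jqModC ℤ)) (qExpand ℤ d (jqModC ℤ)) = 0 →
      (P₂.map (Polynomial.mapRingHom (Int.castRingHom k))).eval₂ (h36_evC (jqModC k))
        (qExpand k d (jqModC k)) = 0 := by
    intro P₂ h2
    have := congrArg (coeffMap (Int.castRingHom k)) h2
    rw [map_zero, h36_coeffMap_eval₂, coeffMap_qExpand, coeffMap_jqModC] at this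
    exact this
  obtain ⟨ℓ, hℓ⟩ := CharP.exists k
  rcases CharP.char_is_prime_or_zero k ℓ with hprime | hzero
  · -- positive characteristic
    set a : Polynomial (Polynomial ℤ) := Polynomial.C (Polynomial.C (ℓ : ℤ)) with ha
    have ha_unit : ¬ IsUnit a := by
      rw [ha, Polynomial.isUnit_C, Polynomial.isUnit_C, Int.isUnit_iff]
      have := hprime.two_le
      omega
    have hfin : FiniteMultiplicity a P₁ := FiniteMultiplicity.of_not_isUnit ha_unit hP₁
    obtain ⟨P₂, hP₂, hnd⟩ := hfin.exists_eq_pow_mul_and_not_dvd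
    have ha0 : a ≠ 0 := by
      rw [ha, Ne, Polynomial.C_eq_zero, Polynomial.C_eq_zero]
      exact_mod_cast hprime.ne_zero
    have h2 : P₂.eval₂ (h36_evC (jqModC ℤ)) (qExpand ℤ d (jqModC ℤ)) = 0 := by
      rw [hP₂, Polynomial.eval₂_mul, Polynomial.eval₂_pow] at hrel
      rcases mul_eq_zero.mp hrel with h | h
      · exfalso
        refine pow_ne_zero _ ?_ h
        rw [ha, Polynomial.eval₂_C]
        have h4 : h36_evC (jqModC ℤ) (Polynomial.C (ℓ : ℤ)) = HahnSeries.C (ℓ : ℤ) := by
          simp [h36_evC]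
        rw [h4]
        intro h3
        have h5 : ((ℓ : ℤ)) = 0 :=
          HahnSeries.C_injective (h3.trans (map_zero (HahnSeries.C : ℤ →+* LaurentSeries ℤ)).symm)
        exact hprime.ne_zero (by exact_mod_cast h5)
      · exact h
    refine ⟨P₂.map (Polynomial.mapRingHom (Int.castRingHom k)), ?_, key P₂ h2⟩
    intro h0
    exact hnd (h36_dvd_of_map_eq_zero k ℓ h0)
  · -- characteristic zero
    subst hzero
    have : CharZero k := CharP.charP_to_charZero k
    exact ⟨P₁.map (Polynomial.mapRingHom (Int.castRingHom k)),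
      h36_map_ne_zero_of_charZero k hP₁, key P₁ hrel⟩

/-! ### algebraicity -/

theorem h36_C_eq_algebraMap (k : Type) [Field k] :
    (HahnSeries.C : k →+* LaurentSeries k) = algebraMap k (LaurentSeries k) := by
  ext a : 1
  rw [P2MW.S_ModularCurve_coeff_jqModC_neg_one.ModularCurve.CharLRows.algebraMap_laurentSeries_eq_single,
    HahnSeries.C_apply]

/-- **R-S18b.** `j̄(q^d)` is algebraic over `k(j̄)`. -/
theorem algebraicModL : IfaceAlgebraicModL := by
  intro k _ d _
  obtain ⟨P, hP0, hP⟩ := h36_field_relation k d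
  have htr : Transcendental k (jqModC k) :=
    P2MW.S_ModularCurve_coeff_jqModC_neg_one.ModularCurve.CharLRows.transcendental_jqModC k
  let g : Polynomial k →+* (IntermediateField.adjoin k {jqModC k}) :=
    (Polynomial.aeval (IntermediateField.AdjoinSimple.gen k (jqModC k))).toRingHom
  have hcomp : (algebraMap (IntermediateField.adjoin k {jqModC k}) (LaurentSeries k)).comp g =
      h36_evC (jqModC k) := by
    apply Polynomial.ringHom_ext
    · intro a
      simp only [g, RingHom.comp_apply, AlgHom.toRingHom_eq_coe, RingHom.coe_coe,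
        Polynomial.aeval_C, h36_evC, Polynomial.coe_eval₂RingHom, Polynomial.eval₂_C]
      rw [h36_C_eq_algebraMap]
      rfl
    · simp only [g, RingHom.comp_apply, AlgHom.toRingHom_eq_coe, RingHom.coe_coe,
        Polynomial.aeval_X, h36_evC, Polynomial.coe_eval₂RingHom, Polynomial.eval₂_X]
      rfl
  have hg_inj : Function.Injective g := by
    rw [injective_iff_map_eq_zero]
    intro Q hQ
    have h1 : h36_evC (jqModC k) Q = 0 := by
      rw [← hcomp, RingHom.comp_apply, hQ, map_zero]
    have h2 : Polynomial.aeval (jqModC k) Q = 0 := by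
      rw [Polynomial.aeval_def, ← h36_C_eq_algebraMap]
      exact h1
    exact transcendental_iff.mp htr Q h2
  refine ⟨P.map g, ?_, ?_⟩
  · rw [Ne, Polynomial.map_eq_zero_iff hg_inj]
    exact hP0
  · rw [Polynomial.aeval_def, Polynomial.eval₂_map, hcomp]
    exact hP

end Fermat.Agent.S18

end
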