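import Mathlib
import Fermat.Agent.S18.H18ConstSkel
import Fermat.Agent.S24.PrincipalDiv

/-!
# R-S18c: `F_k` is finite over `k(x)` for every transcendental `x`

`finiteModL (h : IfaceAlgebraicModL) : IfaceFiniteModL`.  The field `F_k` is generated over
`k(j̄)` by the finitely many `j̄(q^d)`, `d ∣ N`, each algebraic over `k(j̄)`; the passage from
`j̄` to an arbitrary transcendental `x` is the transcendence degree one argument
`Fermat.Agent.S24.pd_finiteDimensional_adjoin_of_transcendental`.
-/

set_option autoImplicit false

noncomputable section

open HahnSeries IntermediateField AlgebraicCurve ModularCurve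

namespace Fermat.Agent.S18

/-- the set of generators of `F_k` is finite -/
theorem h57_finite_divisorExpansionsC (k : Type*) [Field k] (N : ℕ) [NeZero N] :
    (divisorExpansionsC k N).Finite := by
  classical
  let g : {d : ℕ // d ∈ N.divisors} → LaurentSeries k := fun d =>
    haveI : NeZero d.1 := ⟨(Nat.pos_of_mem_divisors d.2).ne'⟩
    qExpand k d.1 (jqModC k)
  refine (Set.finite_range g).subset ?_
  rintro x ⟨d, hne, hd, rfl⟩
  exact ⟨⟨d, Nat.mem_divisors.mpr ⟨hd, NeZero.ne N⟩⟩, rfl⟩

/-- A finitely generated field extension `F = k(S)` with all generators algebraic over an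
intermediate field `k(t)` is finite over `k(t)`. -/
theorem h57_finite_of_generators {k F : Type*} [Field k] [Field F] [Algebra k F]
    (t : F) (S : Set F) (hS : S.Finite) (hgen : IntermediateField.adjoin k S = ⊤)
    (halg : ∀ y ∈ S, IsIntegral (IntermediateField.adjoin k {t}) y) :
    FiniteDimensional (IntermediateField.adjoin k {t}) F := by
  classical
  have h2 : IntermediateField.adjoin (IntermediateField.adjoin k {t}) S = ⊤ := by
    rw [← IntermediateField.restrictScalars_eq_top_iff (K := k),
      IntermediateField.adjoin_adjoin_left, eq_top_iff, ← hgen]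
    exact IntermediateField.adjoin.mono k _ _ Set.subset_union_right
  have : Finite S := hS.to_subtype
  have h4 : FiniteDimensional (IntermediateField.adjoin k {t})
      (IntermediateField.adjoin (IntermediateField.adjoin k {t}) S) :=
    IntermediateField.finiteDimensional_adjoin halg
  rw [h2] at h4
  exact Module.Finite.equiv
    (IntermediateField.topEquiv (F := IntermediateField.adjoin k {t}) (E := F)).toLinearEquiv

/-- Transport of algebraicity along the inclusion of an intermediate field: if `y ∈ E ⊆ L` is
algebraic over `k(t) ⊆ L` with `t ∈ E`, then `y` is algebraic over `k(t) ⊆ E`. -/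
theorem h57_isAlgebraic_descend {k L : Type*} [Field k] [Field L] [Algebra k L]
    (E : IntermediateField k L) (t y : E)
    (halg : IsAlgebraic (IntermediateField.adjoin k {(t : L)}) (y : L)) :
    IsAlgebraic (IntermediateField.adjoin k {t}) y := by
  classical
  have hmap : (IntermediateField.adjoin k {t}).map E.val
      = IntermediateField.adjoin k {(t : L)} := by
    rw [IntermediateField.adjoin_map, Set.image_singleton]
    rfl
  let f : (IntermediateField.adjoin k {t}) →+* (IntermediateField.adjoin k {(t : L)}) :=
    { toFun := fun c => ⟨((c : E) : L), by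
        rw [← hmap]
        exact ⟨(c : E), c.2, rfl⟩⟩
      map_one' := rfl
      map_mul' := fun _ _ => rfl
      map_zero' := rfl
      map_add' := fun _ _ => rfl }
  have hf : Function.Surjective f := by
    rintro ⟨e, he⟩
    rw [← hmap] at he
    obtain ⟨c, hc, hce⟩ := he
    exact ⟨⟨c, hc⟩, Subtype.ext hce⟩
  have hg : Function.Injective (E.val : E →+* L) := Subtype.val_injective
  have hcomp : RingHom.comp (algebraMap (IntermediateField.adjoin k {(t : L)}) L) f
      = RingHom.comp (E.val : E →+* L) (algebraMap (IntermediateField.adjoin k {t}) E) := by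
    ext c
    rfl
  have halg' : IsAlgebraic (IntermediateField.adjoin k {(t : L)}) ((E.val : E →+* L) y) :=
    halg
  exact IsAlgebraic.of_ringHom_of_comp_eq f (E.val : E →+* L) halg' hf hg hcomp

/-- `F_k` is finite over `k(j̄)`. -/
theorem h57_finite_over_j (h : IfaceAlgebraicModL) (k : Type) [Field k] (N : ℕ) [NeZero N] :
    FiniteDimensional
      (IntermediateField.adjoin k
        {(⟨jqModC k, jqModC_mem_full k N⟩ : modularFunctionFieldFullC k N)})
      (modularFunctionFieldFullC k N) := by
  classical
  have hS'fin : {y : modularFunctionFieldFullC k N |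
      (y : LaurentSeries k) ∈ divisorExpansionsC k N}.Finite :=
    (h57_finite_divisorExpansionsC k N).preimage (Subtype.val_injective.injOn)
  have himage : (modularFunctionFieldFullC k N).val '' {y : modularFunctionFieldFullC k N |
      (y : LaurentSeries k) ∈ divisorExpansionsC k N} = divisorExpansionsC k N := by
    ext y
    constructor
    · rintro ⟨z, hz, rfl⟩
      exact hz
    · intro hy
      exact ⟨⟨y, subset_adjoin k _ hy⟩, hy, rfl⟩
  -- (i) the generators generate `F_k` over `k`
  have h1 : IntermediateField.adjoin k {y : modularFunctionFieldFullC k N |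
      (y : LaurentSeries k) ∈ divisorExpansionsC k N} = ⊤ := by
    apply IntermediateField.map_injective (modularFunctionFieldFullC k N).val
    rw [IntermediateField.adjoin_map, himage, ← AlgHom.fieldRange_eq_map,
      IntermediateField.fieldRange_val]
    rfl
  refine h57_finite_of_generators _ _ hS'fin h1 ?_
  rintro ⟨y, hyF⟩ ⟨d, hne, hd, hyd⟩
  have hyd' : y = qExpand k d (jqModC k) := hyd
  have halg : IsAlgebraic (IntermediateField.adjoin k {jqModC k}) (qExpand k d (jqModC k)) :=
    @h k _ d hne
  refine (h57_isAlgebraic_descend (modularFunctionFieldFullC k N)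
    ⟨jqModC k, jqModC_mem_full k N⟩ ⟨y, hyF⟩ ?_).isIntegral
  show IsAlgebraic (IntermediateField.adjoin k {jqModC k}) y
  rw [hyd']
  exact halg

/-- **R-S18c.** -/
theorem finiteModL (h : IfaceAlgebraicModL) : IfaceFiniteModL := by
  intro k _ N _ x hx
  have := h57_finite_over_j h k N
  exact Fermat.Agent.S24.pd_finiteDimensional_adjoin_of_transcendental
    (⟨jqModC k, jqModC_mem_full k N⟩ : modularFunctionFieldFullC k N) x hx

end Fermat.Agent.S18

end
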