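import Fermat.Agent.S18.H18FromGood
import Fermat.Agent.Red.GateGoodFinal
import Fermat.Agent.Red.SM.FinalTID

/-!
# S18 from smoothness at good levels alone (helper18)

All chart inputs of the gate at good levels are landed (`GG.gateGood_of_smooth`, helper26, from
the leaves of helper97, helper85, helper71, helper67 and `h18c_hint`).  So S18 follows from
`S37.IfaceSmooth`, hence from the row `Inst.RowTID` (the Hauptmodul coordinates at the auxiliary
levels, `h13_ifaceSmooth_of_rowTID`, helper13).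
-/

set_option autoImplicit false

namespace Fermat.Agent.S18

/-- the gate at good levels, from the row `RowTID`. -/
theorem h18_gateGood_of_rowTID (hTID : Fermat.Agent.Red.SM.Inst.RowTID) :
    Fermat.Agent.S37.GateGood :=
  Fermat.Agent.Red.GG.gateGood_of_smooth (Fermat.Agent.Red.SM.h13_ifaceSmooth_of_rowTID hTID)

/-- **S18, conditional only on `IfaceSmooth`.** -/
theorem S18_of_smooth (hSM : Fermat.Agent.S37.IfaceSmooth)
    (N : ℕ) [NeZero N] {ℓ : ℕ}
    [Fact ℓ.Prime] (hℓN : ¬ ℓ ∣ N) (A : ValuationSubring (AlgebraicClosure ℚ)) (hA : A.LiesOverPrime ℓ)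
    (h : ModularCurve.ReductionInputsModL A N) (m : ℕ) (hm : ¬ ℓ ∣ m) (z : ModularCurve.JZero N)
    (hmz : m • z = 0) (hz : ModularCurve.reductionModL A N z = 0) :
    z = 0 :=
  S18_of_gateGood (Fermat.Agent.Red.GG.gateGood_of_smooth hSM) N hℓN A hA h m hm z hmz hz

/-- **S18, conditional only on the row `RowTID`.** -/
theorem S18_of_rowTID (hTID : Fermat.Agent.Red.SM.Inst.RowTID)
    (N : ℕ) [NeZero N] {ℓ : ℕ}
    [Fact ℓ.Prime] (hℓN : ¬ ℓ ∣ N) (A : ValuationSubring (AlgebraicClosure ℚ)) (hA : A.LiesOverPrime ℓ)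
    (h : ModularCurve.ReductionInputsModL A N) (m : ℕ) (hm : ¬ ℓ ∣ m) (z : ModularCurve.JZero N)
    (hmz : m • z = 0) (hz : ModularCurve.reductionModL A N z = 0) :
    z = 0 :=
  S18_of_gateGood (h18_gateGood_of_rowTID hTID) N hℓN A hA h m hm z hmz hz

end Fermat.Agent.S18
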