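import Fermat.Statements.S18
import Fermat.Agent.S18.H18Adapter
import Fermat.Agent.S18.ResAlgClosed
import Fermat.Agent.S18.FinModL
import Fermat.Agent.S18.AlgModL

/-!
# S18 from the good-reduction gate alone

All adapter interfaces (`IfaceResidueAlgClosed`, `IfaceFiniteModL`, `IfaceAlgebraicModL`,
`IfacePlaceExists`) are now discharged; the only remaining hypothesis is the gate
`∀ N, Fermat.Agent.S37.Gate N` (task R-GATE).
-/

namespace Fermat.Agent.S18

/-- **S18, conditional only on the gate.**  The conclusion is the frozen statement verbatim. -/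
theorem S18_of_gate_only
    (hgate : ∀ (N : ℕ) [NeZero N], Fermat.Agent.S37.Gate N)
    (N : ℕ) [NeZero N] {ℓ : ℕ}
    [Fact ℓ.Prime] (hℓN : ¬ ℓ ∣ N) (A : ValuationSubring (AlgebraicClosure ℚ)) (hA : A.LiesOverPrime ℓ)
    (h : ModularCurve.ReductionInputsModL A N) (m : ℕ) (hm : ¬ ℓ ∣ m) (z : ModularCurve.JZero N)
    (hmz : m • z = 0) (hz : ModularCurve.reductionModL A N z = 0) :
    z = 0 :=
  S18_of_gate residueAlgClosed (finiteModL algebraicModL) hgate N hℓN A hA h m hm z hmz hz

end Fermat.Agent.S18
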