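import Fermat.Agent.S18.H18Final
import Fermat.Agent.Red.GateAll
import Fermat.Agent.Red.Desc.Final

/-!
# S18 from the gate at good levels alone

`GateGood` (the geometric heart of P-RED) is now the only remaining hypothesis of S18:
the descent `IfaceGateDescent` (helper77) and the passage prime exponent `→` every exponent
prime to `ℓ` (helper99) are landed.
-/

namespace Fermat.Agent.S18

/-- the gate at every level from the gate at good levels. -/
theorem h18_gate_of_gateGood (hG : Fermat.Agent.S37.GateGood) (N : ℕ) [NeZero N] :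
    Fermat.Agent.S37.Gate N :=
  Fermat.Agent.Red.GateAll.gate_of_gatePrime N
    (Fermat.Agent.Red.GateAll.gatePrime_of hG Fermat.Agent.Red.Desc.ifaceGateDescent N)

/-- **S18, conditional only on `GateGood`.**  The conclusion is the frozen statement
verbatim. -/
theorem S18_of_gateGood (hG : Fermat.Agent.S37.GateGood)
    (N : ℕ) [NeZero N] {ℓ : ℕ}
    [Fact ℓ.Prime] (hℓN : ¬ ℓ ∣ N) (A : ValuationSubring (AlgebraicClosure ℚ)) (hA : A.LiesOverPrime ℓ)
    (h : ModularCurve.ReductionInputsModL A N) (m : ℕ) (hm : ¬ ℓ ∣ m) (z : ModularCurve.JZero N)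
    (hmz : m • z = 0) (hz : ModularCurve.reductionModL A N z = 0) :
    z = 0 :=
  S18_of_gate_only (fun N _ => h18_gate_of_gateGood hG N) N hℓN A hA h m hm z hmz hz

end Fermat.Agent.S18
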